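import Fermat.Agent.S55.G.WA894.Lattice

/-!
# S55 / layer G / leaf WA (helper894), part 3: weak approximation in the tensor model

For a number field `K`, a finite set `S` of primes and `J_S(K) = (K ⊗_ℚ ℚ_S)ˣ`
(`Fermat.Agent.S55.G.AS`):

* `exists_diag_mul_lat` (APPROX): every `S`-idèle is `(x ⊗ 1) · ι(e)⁻¹` with `x ∈ Kˣ` and
  `e ≡ 1 mod Q^M` in the lattice ring `R = ℤ_S ⊗ 𝓞 K`;
* `exists_diag_mul_pow` (WA): `J_S(K) = Kˣ · J_S(K)^n` for every `n > 0`;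
* `exists_pow_eq_diag` (POW): if `x ∈ 𝓞 K`, `x ≡ 1 mod n Q^(n+1)`, then `x ⊗ 1` is an `n`-th
  power in `J_S(K)`.
-/

set_option autoImplicit false
set_option linter.style.haveILetI false
set_option linter.unusedSectionVars false

open scoped NumberField TensorProduct

noncomputable section

namespace Fermat.Agent.S55.G.WA894

open Fermat.Agent.S55.G

variable (S : Finset Nat.Primes) (K : Type) [Field K] [NumberField K]

/-- The inclusion `ℤ_q → ℚ_q`. -/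
def zqToQq (q : Nat.Primes) : Zq q →+* Qq q :=
  @PadicInt.Coe.ringHom (q : ℕ) ⟨q.2⟩

/-- The inclusion `ℤ_S → ℚ_S`. -/
def zsToQS : ZS S →+* QS S :=
  ((QS.toPi S).symm : (∀ q : S, Qq q.1) →+* QS S).comp
    (RingHom.pi fun q : S => (zqToQq q.1).comp (Pi.evalRingHom (fun q : S => Zq q.1) q))

theorem toPi_zsToQS (z : ZS S) (q : S) : QS.toPi S (zsToQS S z) q = zqToQq q.1 (z q) := rfl

/-- The map `ι : R = ℤ_S ⊗ 𝓞 K → K ⊗ ℚ_S`. -/
def lat : RS S K →ₐ[ℤ] AS S K :=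
  Algebra.TensorProduct.productMap
    (((asIncl S K : QS S →ₐ[ℚ] AS S K) : QS S →+* AS S K).comp (zsToQS S)).toIntAlgHom
    (((asDiag S K : K →ₐ[ℚ] AS S K) : K →+* AS S K).comp (algebraMap (𝓞 K) K)).toIntAlgHom

theorem lat_tmul (z : ZS S) (a : 𝓞 K) :
    lat S K (z ⊗ₜ[ℤ] a) = (algebraMap (𝓞 K) K a) ⊗ₜ[ℚ] zsToQS S z := by
  have h : lat S K (z ⊗ₜ[ℤ] a) =
      (asIncl S K (zsToQS S z)) * (asDiag S K (algebraMap (𝓞 K) K a)) := rfl
  rw [h, asIncl, Algebra.TensorProduct.includeRight_apply, asDiag_apply,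
    Algebra.TensorProduct.tmul_mul_tmul, one_mul, mul_one]

theorem lat_one_tmul (a : 𝓞 K) :
    lat S K ((1 : ZS S) ⊗ₜ[ℤ] a) = asDiag S K (algebraMap (𝓞 K) K a) := by
  rw [lat_tmul, map_one, asDiag_apply]

/-! ## Clearing denominators -/

theorem exists_pow_mul_norm_le_one (q : Nat.Primes) (y : Qq q) :
    ∃ c : ℕ, ∀ N : ℕ, (q : ℕ) ^ c ∣ N → ‖((N : ℕ) : Qq q) * y‖ ≤ 1 := by
  haveI : Fact (q : ℕ).Prime := ⟨q.2⟩
  have hq1 : (1 : ℝ) < (q : ℕ) := by exact_mod_cast q.2.one_lt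
  obtain ⟨c, hc⟩ := pow_unbounded_of_one_lt ‖y‖ hq1
  refine ⟨c, ?_⟩
  rintro N ⟨N', rfl⟩
  have h1 : ‖(((q : ℕ) ^ c * N' : ℕ) : Qq q) * y‖ =
      ‖((N' : ℕ) : Qq q)‖ * (‖((q : ℕ) : Qq q) ^ c‖ * ‖y‖) := by
    rw [Nat.cast_mul, Nat.cast_pow, norm_mul, norm_mul]
    ring
  have h2 : ‖((N' : ℕ) : Qq q)‖ ≤ 1 := by
    have := Padic.norm_int_le_one (p := (q : ℕ)) (N' : ℤ)
    simpa using this
  have h3 : ‖((q : ℕ) : Qq q) ^ c‖ * ‖y‖ ≤ 1 := by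
    rw [Padic.norm_p_pow, zpow_neg, zpow_natCast]
    have hpos : (0 : ℝ) < ((q : ℕ) : ℝ) ^ c := by positivity
    rw [inv_mul_le_iff₀ hpos, mul_one]
    exact hc.le
  rw [h1]
  calc ‖((N' : ℕ) : Qq q)‖ * (‖((q : ℕ) : Qq q) ^ c‖ * ‖y‖) ≤ 1 * 1 :=
        mul_le_mul h2 h3 (by positivity) zero_le_one
    _ = 1 := one_mul 1

theorem natCast_toPi (n : ℕ) (q : S) : QS.toPi S ((n : ℕ) : QS S) q = ((n : ℕ) : Qq q.1) := rfl

theorem exists_zs_eq (y : QS S) :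
    ∃ (c : ℕ) (z : ZS S), zsToQS S z = ((prodS S : ℕ) : QS S) ^ c * y := by
  classical
  choose c hc using fun q : S => exists_pow_mul_norm_le_one q.1 (QS.toPi S y q)
  let C : ℕ := ∑ q : S, c q
  have hdvd : ∀ q : S, (q.1 : ℕ) ^ c q ∣ prodS S ^ C := by
    intro q
    have h1 : (q.1 : ℕ) ^ c q ∣ (q.1 : ℕ) ^ C :=
      pow_dvd_pow _ (Finset.single_le_sum (f := c) (fun _ _ => Nat.zero_le _) (Finset.mem_univ q))
    exact h1.trans (pow_dvd_pow_of_dvd (Dvd.intro _ (prodS_eq S q.2).symm) C)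
  refine ⟨C, fun q => ⟨((prodS S ^ C : ℕ) : Qq q.1) * QS.toPi S y q, hc q _ (hdvd q)⟩, ?_⟩
  apply (QS.toPi S).injective
  funext q
  have h1 : QS.toPi S (zsToQS S fun q => ⟨((prodS S ^ C : ℕ) : Qq q.1) * QS.toPi S y q,
      hc q _ (hdvd q)⟩) q = ((prodS S ^ C : ℕ) : Qq q.1) * QS.toPi S y q := rfl
  have h2 : QS.toPi S (((prodS S : ℕ) : QS S) ^ C * y) q =
      ((prodS S : ℕ) : Qq q.1) ^ C * QS.toPi S y q := rfl
  rw [h1, h2, Nat.cast_pow]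

theorem exists_int_smul_eq (a : K) :
    ∃ (d : ℤ) (a₀ : 𝓞 K), d ≠ 0 ∧ algebraMap (𝓞 K) K a₀ = (d : ℚ) • a := by
  have halg : IsAlgebraic ℤ a :=
    (IsFractionRing.isAlgebraic_iff ℤ ℚ K).2 (Algebra.IsAlgebraic.isAlgebraic a)
  obtain ⟨d, hd, hint⟩ := halg.exists_integral_multiple
  refine ⟨d, IsIntegralClosure.mk' (𝓞 K) (d • a) hint, hd, ?_⟩
  rw [IsIntegralClosure.algebraMap_mk']
  rw [Int.cast_smul_eq_zsmul]

/-- Every element of `K ⊗ ℚ_S` is `Q^(-c)` times an element of the lattice. -/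
theorem exists_lat_eq (j : AS S K) :
    ∃ (c : ℕ) (r : RS S K), lat S K r = ((prodS S : ℕ) : AS S K) ^ c * j := by
  induction j using TensorProduct.induction_on with
  | zero => exact ⟨0, 0, by simp⟩
  | tmul a y =>
    obtain ⟨d, a₀, hd, ha₀⟩ := exists_int_smul_eq K a
    have hd' : (d : ℚ) ≠ 0 := by exact_mod_cast hd
    obtain ⟨c, z, hz⟩ := exists_zs_eq S ((d : ℚ)⁻¹ • y)
    refine ⟨c, z ⊗ₜ[ℤ] a₀, ?_⟩
    have hQ : ((prodS S : ℕ) : AS S K) ^ c = (1 : K) ⊗ₜ[ℚ] (((prodS S : ℕ) : QS S) ^ c) := by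
      rw [Algebra.TensorProduct.natCast_def', Algebra.TensorProduct.tmul_pow, one_pow]
    rw [lat_tmul, ha₀, hz, hQ, Algebra.TensorProduct.tmul_mul_tmul, one_mul,
      TensorProduct.smul_tmul, mul_smul_comm, smul_smul, mul_inv_cancel₀ hd', one_smul]
  | add j₁ j₂ h₁ h₂ =>
    obtain ⟨c₁, r₁, h₁⟩ := h₁
    obtain ⟨c₂, r₂, h₂⟩ := h₂
    refine ⟨c₁ + c₂, ((prodS S : ℕ) : RS S K) ^ c₂ * r₁ + ((prodS S : ℕ) : RS S K) ^ c₁ * r₂, ?_⟩
    rw [map_add, map_mul, map_mul, map_pow, map_pow, map_natCast, h₁, h₂]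
    ring

/-! ## Approximation -/

variable {S K}

theorem isUnit_natCast_prodS : IsUnit (((prodS S : ℕ) : AS S K)) := by
  have h : IsUnit ((prodS S : ℕ) : ℚ) := by
    rw [isUnit_iff_ne_zero]
    exact_mod_cast prodS_ne_zero S
  have := h.map (algebraMap ℚ (AS S K))
  rwa [map_natCast] at this

/-- (APPROX) Every `S`-idèle `j` of `K` satisfies `j · ι(e) = x ⊗ 1` for some `x ∈ Kˣ` and
some unit `e` of the lattice ring with `e ≡ 1 mod Q^M`. -/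
theorem exists_diag_mul_lat (M : ℕ) (hM : 0 < M) (j : (AS S K)ˣ) :
    ∃ (x : Kˣ) (e : (RS S K)ˣ), ((prodS S : ℕ) : RS S K) ^ M ∣ (e : RS S K) - 1 ∧
      (j : AS S K) * lat S K (e : RS S K) = asDiag S K (x : K) := by
  rcases subsingleton_or_nontrivial (AS S K) with hsub | hnt
  · refine ⟨1, 1, by simp, Subsingleton.elim _ _⟩
  obtain ⟨c, r, hr⟩ := exists_lat_eq S K (j : AS S K)
  obtain ⟨c', r', hr'⟩ := exists_lat_eq S K ((j⁻¹ : (AS S K)ˣ) : AS S K)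
  obtain ⟨a, t, hat⟩ := exists_int_approx (c + c' + M) r
  set Q : RS S K := ((prodS S : ℕ) : RS S K) with hQ
  set Q' : AS S K := ((prodS S : ℕ) : AS S K) with hQ'
  have hQQ : lat S K Q = Q' := by rw [hQ, hQ', map_natCast]
  set e : RS S K := 1 - Q ^ M * (r' * t) with he
  have he1 : Q ^ M ∣ e - 1 := ⟨-(r' * t), by rw [he]; ring⟩
  have heu : IsUnit e :=
    isUnit_of_prodS_dvd_sub_one ((dvd_pow_self _ hM.ne').trans he1)
  have hjj : (j : AS S K) * ((j⁻¹ : (AS S K)ˣ) : AS S K) = 1 := by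
    rw [← Units.val_mul, mul_inv_cancel, Units.val_one]
  -- the key identity
  have key : Q' ^ c * ((j : AS S K) * lat S K e) =
      asDiag S K (algebraMap (𝓞 K) K a) := by
    have h1 : lat S K ((1 : ZS S) ⊗ₜ[ℤ] a) = lat S K r - Q' ^ (c + c' + M) * lat S K t := by
      rw [hat, map_add, map_mul, map_pow, hQQ]
      ring
    rw [← lat_one_tmul, h1, hr, he, map_sub, map_one, map_mul, map_mul, map_pow, hQQ, hr']
    have : Q' ^ c * ((j : AS S K) * (1 - Q' ^ M * (Q' ^ c' * ((j⁻¹ : (AS S K)ˣ) : AS S K)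
        * lat S K t))) = Q' ^ c * (j : AS S K) -
        Q' ^ (c + c' + M) * ((j : AS S K) * ((j⁻¹ : (AS S K)ˣ) : AS S K)) * lat S K t := by
      ring
    rw [this, hjj, mul_one]
  have hQu : IsUnit (Q' ^ c) := (isUnit_natCast_prodS (S := S) (K := K)).pow c
  have hdu : IsUnit (asDiag S K (algebraMap (𝓞 K) K a)) := by
    rw [← key]
    exact hQu.mul (j.isUnit.mul (heu.map (lat S K)))
  have ha0 : algebraMap (𝓞 K) K a ≠ 0 := by
    intro h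
    rw [h, map_zero] at hdu
    exact not_isUnit_zero hdu
  have hq0 : ((prodS S : ℕ) : K) ≠ 0 := by exact_mod_cast prodS_ne_zero S
  refine ⟨Units.mk0 (algebraMap (𝓞 K) K a / ((prodS S : ℕ) : K) ^ c)
    (div_ne_zero ha0 (pow_ne_zero _ hq0)), heu.unit, he1, ?_⟩
  rw [IsUnit.unit_spec, Units.val_mk0]
  apply hQu.mul_left_cancel
  rw [key, hQ', ← map_natCast (asDiag S K), ← map_pow, ← map_mul,
    mul_div_cancel₀ _ (pow_ne_zero _ hq0)]

/-- (WA) Weak approximation: `J_S(K) = Kˣ · J_S(K)^n`. -/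
theorem exists_diag_mul_pow {n : ℕ} (hn : 0 < n) (j : (AS S K)ˣ) :
    ∃ (x : Kˣ) (u : (AS S K)ˣ),
      j = Units.map ((asDiag S K : K →ₐ[ℚ] AS S K) : K →* AS S K) x * u ^ n := by
  obtain ⟨x, e, he1, hje⟩ := exists_diag_mul_lat (2 * n + 1) (by omega) j
  obtain ⟨b, hb⟩ := exists_unit_pow_eq' hn he1
  refine ⟨x, (Units.map (lat S K : RS S K →* AS S K) b)⁻¹, ?_⟩
  rw [inv_pow, eq_mul_inv_iff_mul_eq]
  apply Units.ext
  rw [Units.val_mul, Units.val_pow_eq_pow_val, Units.coe_map, Units.coe_map]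
  change (j : AS S K) * (lat S K (b : RS S K)) ^ n = asDiag S K (x : K)
  rw [← map_pow, hb, hje]

/-- (POW) Elements of `𝓞 K` congruent to `1` modulo `n Q^(n+1)` are `n`-th powers of
`S`-idèles. -/
theorem exists_pow_eq_diag {n : ℕ} (hn : 0 < n) (x : 𝓞 K)
    (hx : ((n * prodS S ^ (n + 1) : ℕ) : 𝓞 K) ∣ x - 1) :
    ∃ u : (AS S K)ˣ, (u : AS S K) ^ n = asDiag S K (algebraMap (𝓞 K) K x) := by
  obtain ⟨y, hy⟩ := hx
  have hw : ((n : ℕ) : RS S K) * ((prodS S : ℕ) : RS S K) ^ (n + 1) ∣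
      (1 : ZS S) ⊗ₜ[ℤ] x - 1 := by
    refine ⟨(1 : ZS S) ⊗ₜ[ℤ] y, ?_⟩
    have h1 : ((n : ℕ) : RS S K) * ((prodS S : ℕ) : RS S K) ^ (n + 1) =
        (1 : ZS S) ⊗ₜ[ℤ] ((n * prodS S ^ (n + 1) : ℕ) : 𝓞 K) := by
      rw [← Algebra.TensorProduct.natCast_def']
      push_cast
      ring
    rw [h1, Algebra.TensorProduct.tmul_mul_tmul, one_mul, ← hy, Algebra.TensorProduct.one_def,
      ← TensorProduct.tmul_sub]
  obtain ⟨b, hb⟩ := exists_unit_pow_eq hn hw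
  refine ⟨Units.map (lat S K : RS S K →* AS S K) b, ?_⟩
  rw [Units.coe_map]
  change (lat S K (b : RS S K)) ^ n = _
  rw [← map_pow, hb, lat_one_tmul]

/-! ## Additive forms (in the language of `Fermat.Agent.S55.G.Defs`) -/

/-- (WA), additive form: `J_S(K) = diag(Kˣ) + n J_S(K)`. -/
theorem exists_unitsDiag_add_nsmul {n : ℕ} (hn : 0 < n) (j : Additive (AS S K)ˣ) :
    ∃ (x : Additive Kˣ) (u : Additive (AS S K)ˣ), j = unitsDiag S K x + n • u := by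
  obtain ⟨x, u, h⟩ := exists_diag_mul_pow hn j.toMul
  exact ⟨Additive.ofMul x, Additive.ofMul u, congrArg Additive.ofMul h⟩

/-- (POW), additive form: if `x ∈ Kˣ` is integral and `x ≡ 1 mod n Q^(n+1)`, then
`diag x ∈ n J_S(K)`. -/
theorem exists_nsmul_eq_unitsDiag {n : ℕ} (hn : 0 < n) (x : Additive Kˣ) (x₀ : 𝓞 K)
    (hx₀ : algebraMap (𝓞 K) K x₀ = ((x.toMul : Kˣ) : K))
    (hx : ((n * prodS S ^ (n + 1) : ℕ) : 𝓞 K) ∣ x₀ - 1) :
    ∃ u : Additive (AS S K)ˣ, n • u = unitsDiag S K x := by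
  obtain ⟨u, hu⟩ := exists_pow_eq_diag (S := S) hn x₀ hx
  refine ⟨Additive.ofMul u, ?_⟩
  apply Additive.toMul.injective
  apply Units.ext
  rw [coe_unitsDiag_apply, ← hx₀, ← hu]
  rfl

end Fermat.Agent.S55.G.WA894
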