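import Fermat.Agent.S55.G.WA894.ZS
import Fermat.Agent.S55.H424.PowBij
import Fermat.Agent.S55.L.H661.NormHensel

/-!
# S55 / layer G / leaf WA (helper894), part 2: the lattice ring `R = ℤ_S ⊗ 𝓞 K`

`R = ℤ_S ⊗_ℤ 𝓞 K` is `Q`-adically complete; `1 + n Q^(n+1) R ⊆ (Rˣ)^n`; `𝓞 K` is dense in `R`.
-/

set_option autoImplicit false
set_option linter.style.haveILetI false
set_option linter.unusedSectionVars false

open scoped NumberField TensorProduct

noncomputable section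

namespace Fermat.Agent.S55.G.WA894

open Fermat.Agent.S55.G

variable (S : Finset Nat.Primes) (K : Type) [Field K] [NumberField K]

/-- The lattice ring `R = ℤ_S ⊗_ℤ 𝓞 K`. -/
abbrev RS : Type := ZS S ⊗[ℤ] 𝓞 K

/-- `R` is `Q`-adically complete. -/
instance isAdicComplete_RS :
    IsAdicComplete (Ideal.span {((prodS S : ℕ) : RS S K)}) (RS S K) := by
  let I : Ideal (ZS S) := Ideal.span {((prodS S : ℕ) : ZS S)}
  let b := Algebra.TensorProduct.basis (ZS S) (NumberField.RingOfIntegers.basis K)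
  have hP : IsPrecomplete I (RS S K) := L.H661.isPrecomplete_of_basis b I
  have hH : IsHausdorff I (RS S K) := by
    refine ⟨fun x hx => ?_⟩
    apply b.repr.injective
    refine Finsupp.ext fun i => ?_
    rw [map_zero, Finsupp.zero_apply]
    apply IsHausdorff.haus (inferInstance : IsHausdorff I (ZS S))
    intro n
    rw [SModEq.sub_mem, sub_zero, smul_eq_mul, Ideal.mul_top]
    have := hx n
    rw [SModEq.sub_mem, sub_zero] at this
    exact L.H661.repr_mem_of_mem_smul_top b (I ^ n) this i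
  have hA : IsAdicComplete I (RS S K) := { hH, hP with }
  have h := (IsAdicComplete.map_algebraMap_iff (I := I) (S := RS S K) (M := RS S K)).2 hA
  have hI : I.map (algebraMap (ZS S) (RS S K)) = Ideal.span {((prodS S : ℕ) : RS S K)} := by
    rw [Ideal.map_span, Set.image_singleton, map_natCast]
  rwa [hI] at h

variable {S K}

theorem isUnit_of_prodS_dvd_sub_one {w : RS S K} (h : ((prodS S : ℕ) : RS S K) ∣ w - 1) :
    IsUnit w := by
  have h1 : w - 1 ∈ (⊥ : Ideal (RS S K)).jacobson :=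
    IsAdicComplete.le_jacobson_bot (Ideal.span {((prodS S : ℕ) : RS S K)})
      (Ideal.mem_span_singleton.2 h)
  have h2 := (Ideal.mem_jacobson_bot.1 h1) 1
  simpa using h2

theorem natCast_dvd_prodS_pow_RS {n : ℕ} (hn : 0 < n) :
    ((n : ℕ) : RS S K) ∣ ((prodS S : ℕ) : RS S K) ^ n := by
  have := map_dvd (algebraMap (ZS S) (RS S K)) (natCast_dvd_prodS_pow S hn)
  rwa [map_pow, map_natCast, map_natCast] at this

/-- `1 + n Q^(n+1) R ⊆ (Rˣ)^n`. -/
theorem exists_unit_pow_eq {n : ℕ} (hn : 0 < n) {w : RS S K}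
    (hw : ((n : ℕ) : RS S K) * ((prodS S : ℕ) : RS S K) ^ (n + 1) ∣ w - 1) :
    ∃ b : (RS S K)ˣ, ((b : RS S K)) ^ n = w := by
  obtain ⟨x, hx1, hx2⟩ := H424.exists_pow_eq ((prodS S : ℕ) : RS S K)
    (natCast_dvd_prodS_pow_RS hn) (le_refl (n + 1)) hw
  have hu : IsUnit x :=
    isUnit_of_prodS_dvd_sub_one ((dvd_pow_self _ (Nat.succ_ne_zero n)).trans hx1)
  exact ⟨hu.unit, hx2⟩

/-- `1 + Q^(2n+1) R ⊆ (Rˣ)^n`. -/
theorem exists_unit_pow_eq' {n : ℕ} (hn : 0 < n) {w : RS S K}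
    (hw : ((prodS S : ℕ) : RS S K) ^ (2 * n + 1) ∣ w - 1) :
    ∃ b : (RS S K)ˣ, ((b : RS S K)) ^ n = w := by
  apply exists_unit_pow_eq hn
  refine dvd_trans ?_ hw
  have h1 : ((prodS S : ℕ) : RS S K) ^ (2 * n + 1) =
      ((prodS S : ℕ) : RS S K) ^ n * ((prodS S : ℕ) : RS S K) ^ (n + 1) := by
    rw [← pow_add]
    congr 1
    omega
  rw [h1]
  exact mul_dvd_mul_right (natCast_dvd_prodS_pow_RS hn) _

/-- `𝓞 K` is `Q`-adically dense in `R`. -/
theorem exists_int_approx (M : ℕ) (r : RS S K) :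
    ∃ (a : 𝓞 K) (t : RS S K), r = (1 : ZS S) ⊗ₜ[ℤ] a + ((prodS S : ℕ) : RS S K) ^ M * t := by
  induction r using TensorProduct.induction_on with
  | zero => exact ⟨0, 0, by simp⟩
  | tmul z a =>
    obtain ⟨k, z', hz'⟩ := exists_nat_sub_dvd S M z
    refine ⟨k • a, z' ⊗ₜ[ℤ] a, ?_⟩
    have hz : z = (k : ZS S) + ((prodS S : ℕ) : ZS S) ^ M * z' := by
      rw [← hz']; ring
    have hQ : ((prodS S : ℕ) : RS S K) ^ M = (((prodS S : ℕ) : ZS S) ^ M) ⊗ₜ[ℤ] (1 : 𝓞 K) := by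
      rw [Algebra.TensorProduct.natCast_def, Algebra.TensorProduct.tmul_pow, one_pow]
    have hk : (k : ZS S) ⊗ₜ[ℤ] a = (1 : ZS S) ⊗ₜ[ℤ] (k • a) := by
      rw [TensorProduct.tmul_smul, TensorProduct.smul_tmul', nsmul_eq_mul, mul_one]
    rw [hQ, Algebra.TensorProduct.tmul_mul_tmul, one_mul, ← hk, ← TensorProduct.add_tmul, ← hz]
  | add r₁ r₂ h₁ h₂ =>
    obtain ⟨a₁, t₁, h₁⟩ := h₁
    obtain ⟨a₂, t₂, h₂⟩ := h₂
    refine ⟨a₁ + a₂, t₁ + t₂, ?_⟩
    rw [h₁, h₂, TensorProduct.tmul_add]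
    ring

end Fermat.Agent.S55.G.WA894
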