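import Mathlib
import Fermat.Agent.S55.G.Defs

/-!
# S55 / layer G / leaf WA (helper894), part 1: the semi-local ring `ℤ_S = ∏_{q ∈ S} ℤ_q`

`ℤ_S` is complete for the `Q`-adic topology, `Q = ∏_{q ∈ S} q`; every positive integer `n`
divides `Q ^ n` in `ℤ_S`; `ℤ` is `Q`-adically dense in `ℤ_S`; every element of `ℚ_S` is
`Q ^ (-c)` times an element of `ℤ_S`.
-/

set_option autoImplicit false
set_option linter.style.haveILetI false

open scoped NumberField TensorProduct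

noncomputable section

namespace Fermat.Agent.S55.G.WA894

open Fermat.Agent.S55.G

/-! ## Principal adic topologies -/

section Principal

variable {A : Type*} [CommRing A] (ϖ : A)

theorem span_pow_smul_top (n : ℕ) :
    (Ideal.span {ϖ} ^ n • ⊤ : Submodule A A) = Ideal.span {ϖ ^ n} := by
  rw [Ideal.span_singleton_pow, smul_eq_mul, Ideal.mul_top]

theorem smodEq_span_pow_iff (n : ℕ) (x y : A) :
    x ≡ y [SMOD (Ideal.span {ϖ} ^ n • ⊤ : Submodule A A)] ↔ ϖ ^ n ∣ x - y := by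
  rw [SModEq.sub_mem, span_pow_smul_top, Ideal.mem_span_singleton]

theorem isAdicComplete_span_of (hH : ∀ x : A, (∀ n : ℕ, ϖ ^ n ∣ x) → x = 0)
    (hP : ∀ f : ℕ → A, (∀ m n : ℕ, m ≤ n → ϖ ^ m ∣ f m - f n) →
      ∃ L : A, ∀ n : ℕ, ϖ ^ n ∣ f n - L) :
    IsAdicComplete (Ideal.span {ϖ}) A where
  haus' x hx := by
    apply hH
    intro n
    have := hx n
    rwa [smodEq_span_pow_iff, sub_zero] at this
  prec' f hf := by
    obtain ⟨L, hL⟩ := hP f fun m n hmn => by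
      have := hf hmn
      rwa [smodEq_span_pow_iff] at this
    exact ⟨L, fun n => by rw [smodEq_span_pow_iff]; exact hL n⟩

theorem eq_zero_of_forall_pow_dvd' [IsHausdorff (Ideal.span {ϖ}) A] {x : A}
    (hx : ∀ n : ℕ, ϖ ^ n ∣ x) : x = 0 := by
  apply IsHausdorff.haus ‹_›
  intro n
  rw [smodEq_span_pow_iff, sub_zero]
  exact hx n

theorem exists_limit_of_cauchy [IsPrecomplete (Ideal.span {ϖ}) A] (f : ℕ → A)
    (hf : ∀ m n : ℕ, m ≤ n → ϖ ^ m ∣ f m - f n) : ∃ L : A, ∀ n : ℕ, ϖ ^ n ∣ f n - L := by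
  obtain ⟨L, hL⟩ := IsPrecomplete.prec ‹_› (f := f) fun {m n} hmn => by
    rw [smodEq_span_pow_iff]
    exact hf m n hmn
  exact ⟨L, fun n => by have := hL n; rwa [smodEq_span_pow_iff] at this⟩

end Principal

/-! ## `ℤ_q`, `ℤ_S`, `Q` -/

/-- `ℤ_q` for a bundled prime `q`. -/
abbrev Zq (q : Nat.Primes) : Type := @PadicInt (q : ℕ) ⟨q.2⟩

/-- The semi-local ring `ℤ_S = ∏_{q ∈ S} ℤ_q`. -/
abbrev ZS (S : Finset Nat.Primes) : Type := ∀ q : S, Zq q.1

/-- `Q = ∏_{q ∈ S} q`. -/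
def prodS (S : Finset Nat.Primes) : ℕ := ∏ q ∈ S, (q : ℕ)

theorem prodS_pos (S : Finset Nat.Primes) : 0 < prodS S :=
  Finset.prod_pos fun q _ => q.2.pos

theorem prodS_ne_zero (S : Finset Nat.Primes) : prodS S ≠ 0 := (prodS_pos S).ne'

/-- The cofactor of `q` in `Q`. -/
def cofS (S : Finset Nat.Primes) (q : Nat.Primes) : ℕ := ∏ r ∈ S.erase q, (r : ℕ)

theorem prodS_eq (S : Finset Nat.Primes) {q : Nat.Primes} (hq : q ∈ S) :
    prodS S = (q : ℕ) * cofS S q :=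
  (Finset.mul_prod_erase S (fun r : Nat.Primes => (r : ℕ)) hq).symm

theorem coprime_cofS (S : Finset Nat.Primes) (q : Nat.Primes) :
    Nat.Coprime (q : ℕ) (cofS S q) := by
  apply Nat.Coprime.prod_right
  intro r hr
  rw [Nat.coprime_primes q.2 r.2]
  intro h
  exact (Finset.ne_of_mem_erase hr) (Subtype.ext h.symm)

theorem isUnit_cofS (S : Finset Nat.Primes) (q : Nat.Primes) :
    IsUnit ((cofS S q : ℕ) : Zq q) := by
  haveI : Fact (q : ℕ).Prime := ⟨q.2⟩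
  rw [PadicInt.isUnit_iff, PadicInt.norm_natCast_eq_one_iff]
  exact coprime_cofS S q

theorem prodS_pow_dvd_iff (S : Finset Nat.Primes) (q : S) (n : ℕ) (a : Zq q.1) :
    ((prodS S : ℕ) : Zq q.1) ^ n ∣ a ↔ ((q.1 : ℕ) : Zq q.1) ^ n ∣ a := by
  rw [prodS_eq S q.2, Nat.cast_mul, mul_pow]
  exact ((isUnit_cofS S q.1).pow n).mul_right_dvd

theorem pi_dvd_iff {ι : Type*} {R : ι → Type*} [∀ i, CommRing (R i)] (z w : ∀ i, R i) :
    z ∣ w ↔ ∀ i, z i ∣ w i := by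
  constructor
  · rintro ⟨c, rfl⟩ i
    exact ⟨c i, rfl⟩
  · intro h
    choose c hc using h
    exact ⟨c, funext hc⟩

theorem zs_prodS_pow_dvd_iff (S : Finset Nat.Primes) (n : ℕ) (z : ZS S) :
    ((prodS S : ℕ) : ZS S) ^ n ∣ z ↔ ∀ q : S, ((q.1 : ℕ) : Zq q.1) ^ n ∣ z q := by
  rw [pi_dvd_iff]
  refine forall_congr' fun q => ?_
  have : (((prodS S : ℕ) : ZS S) ^ n) q = ((prodS S : ℕ) : Zq q.1) ^ n := by
    simp
  rw [this, prodS_pow_dvd_iff]

/-- `ℤ_q` is complete for the topology defined by the powers of `q`. -/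
instance isAdicComplete_Zq (q : Nat.Primes) :
    IsAdicComplete (Ideal.span {((q : ℕ) : Zq q)}) (Zq q) := by
  haveI : Fact (q : ℕ).Prime := ⟨q.2⟩
  rw [← PadicInt.maximalIdeal_eq_span_p]
  infer_instance

/-- `ℤ_S` is `Q`-adically complete. -/
instance isAdicComplete_ZS (S : Finset Nat.Primes) :
    IsAdicComplete (Ideal.span {((prodS S : ℕ) : ZS S)}) (ZS S) := by
  apply isAdicComplete_span_of
  · intro x hx
    funext q
    apply eq_zero_of_forall_pow_dvd' ((q.1 : ℕ) : Zq q.1)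
    intro n
    exact (zs_prodS_pow_dvd_iff S n x).1 (hx n) q
  · intro f hf
    have key : ∀ q : S, ∃ L : Zq q.1, ∀ n : ℕ, ((q.1 : ℕ) : Zq q.1) ^ n ∣ f n q - L := by
      intro q
      apply exists_limit_of_cauchy ((q.1 : ℕ) : Zq q.1) (fun n => f n q)
      intro m n hmn
      exact (zs_prodS_pow_dvd_iff S m (f m - f n)).1 (hf m n hmn) q
    choose L hL using key
    exact ⟨L, fun n => (zs_prodS_pow_dvd_iff S n (f n - L)).2 fun q => hL q n⟩

/-! ## Every positive integer divides a power of `Q` in `ℤ_S` -/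

theorem natCast_dvd_pow_Zq (q : Nat.Primes) {n : ℕ} (hn : 0 < n) :
    ((n : ℕ) : Zq q) ∣ ((q : ℕ) : Zq q) ^ n := by
  haveI : Fact (q : ℕ).Prime := ⟨q.2⟩
  obtain ⟨e, m, hm, rfl⟩ := Nat.exists_eq_pow_mul_and_not_dvd hn.ne' (q : ℕ) q.2.ne_one
  have hu : IsUnit ((m : ℕ) : Zq q) := by
    rw [PadicInt.isUnit_iff, PadicInt.norm_natCast_eq_one_iff]
    exact (Nat.Prime.coprime_iff_not_dvd q.2).2 hm
  rw [Nat.cast_mul, Nat.cast_pow]
  rw [hu.mul_right_dvd]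
  apply pow_dvd_pow
  have h1 : e < (q : ℕ) ^ e := Nat.lt_pow_self q.2.one_lt
  have h2 : (q : ℕ) ^ e ≤ (q : ℕ) ^ e * m :=
    Nat.le_mul_of_pos_right _ (Nat.pos_of_ne_zero fun h => hm (h ▸ dvd_zero _))
  omega

theorem natCast_dvd_prodS_pow (S : Finset Nat.Primes) {n : ℕ} (hn : 0 < n) :
    ((n : ℕ) : ZS S) ∣ ((prodS S : ℕ) : ZS S) ^ n := by
  rw [pi_dvd_iff]
  intro q
  have h1 : ((n : ℕ) : ZS S) q = ((n : ℕ) : Zq q.1) := by simp
  have h2 : (((prodS S : ℕ) : ZS S) ^ n) q = ((prodS S : ℕ) : Zq q.1) ^ n := by simp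
  rw [h1, h2, prodS_eq S q.2, Nat.cast_mul, mul_pow]
  exact (natCast_dvd_pow_Zq q.1 hn).mul_right _

/-! ## Density of `ℤ` in `ℤ_S` -/

theorem exists_nat_sub_dvd_Zq (q : Nat.Primes) (M : ℕ) (z : Zq q) :
    ∃ k : ℕ, ((q : ℕ) : Zq q) ^ M ∣ z - (k : Zq q) := by
  haveI : Fact (q : ℕ).Prime := ⟨q.2⟩
  refine ⟨PadicInt.appr z M, ?_⟩
  rw [← Ideal.mem_span_singleton]
  exact PadicInt.appr_spec M z

/-- `ℤ` (even `ℕ`) is `Q`-adically dense in `ℤ_S`. -/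
theorem exists_nat_sub_dvd (S : Finset Nat.Primes) (M : ℕ) (z : ZS S) :
    ∃ k : ℕ, ((prodS S : ℕ) : ZS S) ^ M ∣ z - (k : ZS S) := by
  classical
  choose a ha using fun q : S => exists_nat_sub_dvd_Zq q.1 M (z q)
  -- extend `a` to all primes
  let a' : Nat.Primes → ℕ := fun q => if h : q ∈ S then a ⟨q, h⟩ else 0
  let s : Nat.Primes → ℕ := fun q => (q : ℕ) ^ M
  have hs : ∀ q ∈ S, s q ≠ 0 := fun q _ => pow_ne_zero _ q.2.ne_zero
  have hpp : Set.Pairwise (↑S : Set Nat.Primes) (Function.onFun Nat.Coprime s) := by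
    intro q _ r _ hqr
    apply Nat.Coprime.pow
    rw [Nat.coprime_primes q.2 r.2]
    exact fun h => hqr (Subtype.ext h)
  obtain ⟨k, hk⟩ := Nat.chineseRemainderOfFinset a' s S hs hpp
  refine ⟨k, ?_⟩
  rw [zs_prodS_pow_dvd_iff]
  intro q
  have h1 : (z - (k : ZS S)) q = (z q - (a q : Zq q.1)) + ((a q : Zq q.1) - (k : Zq q.1)) := by
    simp
  rw [h1]
  apply dvd_add (ha q)
  have h2 := hk q.1 q.2
  have h3 : a' q.1 = a q := by simp [a']
  rw [h3] at h2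
  have h4 : ((q.1 : ℕ) ^ M : ℤ) ∣ (a q : ℤ) - (k : ℤ) := by
    have := (Nat.modEq_iff_dvd.1 h2)
    exact_mod_cast this
  obtain ⟨c, hc⟩ := h4
  refine ⟨(c : Zq q.1), ?_⟩
  have := congrArg (fun x : ℤ => (x : Zq q.1)) hc
  simpa using this

end Fermat.Agent.S55.G.WA894
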